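import Mathlib

/-!
# S27, block D7 (helper65): growth of `det (1 - A ^ m)` along `m, m ℓ, m ℓ², …`

`A` an integer matrix of size `n` with `ℓ ∤ det A`.  Then `A ^ n₀ ≡ 1 mod ℓ²` for some `n₀ > 0`,
and for every multiple `m` of `n₀` and every `e`:
`det (1 - A ^ (m ℓ ^ e)) = det (1 - A ^ m) * (ℓ ^ n) ^ e * u` with `u ≡ 1 mod ℓ`.
-/

set_option autoImplicit false

namespace Fermat.Agent.S27D8

open Finset Matrix

variable {n : ℕ}

/-- a matrix with determinant prime to `ℓ` has finite order modulo `ℓ²`. -/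
theorem exists_pow_eq_one_add_sq (ℓ : ℕ) [Fact ℓ.Prime] (A : Matrix (Fin n) (Fin n) ℤ)
    (hA : IsCoprime A.det (ℓ : ℤ)) :
    ∃ n0 : ℕ, 0 < n0 ∧ ∃ C : Matrix (Fin n) (Fin n) ℤ, A ^ n0 = 1 + ((ℓ : ℤ) ^ 2) • C := by
  have : NeZero (ℓ ^ 2) := ⟨pow_ne_zero 2 (Fact.out : ℓ.Prime).ne_zero⟩
  set f : ℤ →+* ZMod (ℓ ^ 2) := Int.castRingHom _ with hf
  have hℓ0 : f ((ℓ : ℤ) ^ 2) = 0 := by
    rw [hf, eq_intCast, ZMod.intCast_zmod_eq_zero_iff_dvd]
    push_cast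
    exact dvd_refl _
  have hdet : IsUnit (f.mapMatrix A).det := by
    rw [← RingHom.map_det]
    obtain ⟨a, b, hab⟩ := hA.pow_right (n := 2)
    have h1 : f a * f A.det = 1 := by
      have := congrArg f hab
      rw [map_add, map_mul, map_mul, hℓ0, mul_zero, add_zero, map_one] at this
      exact this
    exact IsUnit.of_mul_eq_one (f a) (by rw [mul_comm]; exact h1)
  have hunit : IsUnit (f.mapMatrix A) := (Matrix.isUnit_iff_isUnit_det _).mpr hdet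
  obtain ⟨U, hU⟩ := hunit
  obtain ⟨n0, hn0, hpow⟩ := (isOfFinOrder_of_finite U).exists_pow_eq_one
  refine ⟨n0, hn0, ?_⟩
  have h1 : f.mapMatrix (A ^ n0) = 1 := by
    rw [map_pow, ← hU, ← Units.val_pow_eq_pow_val, hpow, Units.val_one]
  have h2 : ∀ i j, ((ℓ : ℤ) ^ 2) ∣ (A ^ n0 - 1) i j := by
    intro i j
    have h3 : f.mapMatrix (A ^ n0 - 1) = 0 := by
      rw [map_sub, h1, map_one, sub_self]
    have h4 := congrFun (congrFun h3 i) j
    rw [RingHom.mapMatrix_apply, Matrix.map_apply, Matrix.zero_apply, hf, eq_intCast,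
      ZMod.intCast_zmod_eq_zero_iff_dvd] at h4
    push_cast at h4
    exact h4
  choose C hC using h2
  refine ⟨Matrix.of C, ?_⟩
  ext i j
  have := hC i j
  rw [Matrix.sub_apply] at this
  rw [Matrix.add_apply, Matrix.smul_apply, Matrix.of_apply, smul_eq_mul, ← this]
  ring

/-- powers of a matrix `≡ 1 mod c`. -/
theorem pow_eq_one_add_smul {B C : Matrix (Fin n) (Fin n) ℤ} {c : ℤ} (h : B = 1 + c • C)
    (t : ℕ) : ∃ C' : Matrix (Fin n) (Fin n) ℤ, B ^ t = 1 + c • C' := by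
  induction t with
  | zero => exact ⟨0, by rw [pow_zero, smul_zero, add_zero]⟩
  | succ t ih =>
    obtain ⟨C', hC'⟩ := ih
    refine ⟨C' + C + c • (C' * C), ?_⟩
    rw [pow_succ, hC']
    conv_lhs => rw [h]
    rw [add_mul, mul_add, mul_add, one_mul, mul_one, one_mul, Matrix.smul_mul, Matrix.mul_smul,
      smul_add, smul_add, smul_smul]
    abel

/-- the geometric sum of a matrix `≡ 1 mod ℓ²` is `ℓ (1 + ℓ M)`. -/
theorem geom_sum_eq_smul {B C : Matrix (Fin n) (Fin n) ℤ} {ℓ : ℕ}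
    (h : B = 1 + ((ℓ : ℤ) ^ 2) • C) :
    ∃ M : Matrix (Fin n) (Fin n) ℤ,
      ∑ j ∈ range ℓ, B ^ j = (ℓ : ℤ) • (1 + (ℓ : ℤ) • M) := by
  choose C' hC' using fun t => pow_eq_one_add_smul h t
  refine ⟨∑ j ∈ range ℓ, C' j, ?_⟩
  rw [Finset.sum_congr rfl fun j _ => hC' j, Finset.sum_add_distrib, Finset.sum_const,
    Finset.card_range, ← Finset.smul_sum, smul_add, smul_smul, ← pow_two, Nat.cast_smul_eq_nsmul]

/-- one step of the growth. -/
theorem det_one_sub_pow_mul {B C : Matrix (Fin n) (Fin n) ℤ} {ℓ : ℕ} [Fact ℓ.Prime]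
    (h : B = 1 + ((ℓ : ℤ) ^ 2) • C) :
    ∃ u : ℤ, ((u : ℤ) : ZMod ℓ) = 1 ∧ (1 - B ^ ℓ).det = (1 - B).det * (ℓ : ℤ) ^ n * u := by
  obtain ⟨M, hM⟩ := geom_sum_eq_smul h
  refine ⟨(1 + (ℓ : ℤ) • M).det, ?_, ?_⟩
  · have h1 := RingHom.map_det (Int.castRingHom (ZMod ℓ)) (1 + (ℓ : ℤ) • M)
    rw [eq_intCast] at h1
    rw [h1]
    have h2 : (Int.castRingHom (ZMod ℓ)).mapMatrix (1 + (ℓ : ℤ) • M) = 1 := by
      ext i j
      rw [RingHom.mapMatrix_apply, Matrix.map_apply, Matrix.add_apply, Matrix.smul_apply,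
        map_add, smul_eq_mul, map_mul, eq_intCast, eq_intCast, eq_intCast]
      have : (((ℓ : ℤ)) : ZMod ℓ) = 0 := by
        rw [Int.cast_natCast]
        exact ZMod.natCast_self ℓ
      rw [this, zero_mul, add_zero]
      by_cases hij : i = j
      · subst hij
        simp
      · simp [Matrix.one_apply_ne hij]
    rw [h2, Matrix.det_one]
  · have h1 : 1 - B ^ ℓ = (1 - B) * ∑ j ∈ range ℓ, B ^ j := by
      have := mul_geom_sum B ℓ
      rw [← neg_sub, ← this, ← neg_mul, neg_sub]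
    rw [h1, Matrix.det_mul, hM, Matrix.det_smul, Fintype.card_fin]
    ring

/-- **D7**: growth of `det (1 - A ^ m)` along the `ℓ`-tower. -/
theorem det_growth (ℓ : ℕ) [Fact ℓ.Prime] (A : Matrix (Fin n) (Fin n) ℤ)
    (hA : IsCoprime A.det (ℓ : ℤ)) :
    ∃ n0 : ℕ, 0 < n0 ∧ ∀ m : ℕ, n0 ∣ m → ∀ e : ℕ,
      ∃ u : ℤ, ((u : ℤ) : ZMod ℓ) = 1 ∧
        (1 - A ^ (m * ℓ ^ e)).det = (1 - A ^ m).det * ((ℓ : ℤ) ^ n) ^ e * u := by
  obtain ⟨n0, hn0, C, hC⟩ := exists_pow_eq_one_add_sq ℓ A hA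
  refine ⟨n0, hn0, fun m hm e => ?_⟩
  induction e with
  | zero => exact ⟨1, by simp, by simp⟩
  | succ e ih =>
    obtain ⟨u, hu, hdet⟩ := ih
    obtain ⟨t, rfl⟩ := hm
    obtain ⟨C', hC'⟩ := pow_eq_one_add_smul hC (t * ℓ ^ e)
    rw [← pow_mul, ← mul_assoc] at hC'
    obtain ⟨u', hu', hdet'⟩ := det_one_sub_pow_mul (ℓ := ℓ) hC'
    refine ⟨u * u', by rw [Int.cast_mul, hu, hu', one_mul], ?_⟩
    rw [pow_succ, ← mul_assoc, pow_mul A _ ℓ, hdet', hdet, pow_succ]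
    ring

/-- **D7, valuation form**: `v_ℓ |det (1 - A ^ (m ℓ))| = v_ℓ |det (1 - A ^ m)| + n` for the
multiples `m` of `n₀` (if the determinant does not vanish). -/
theorem padicValNat_det_growth (ℓ : ℕ) [Fact ℓ.Prime] (A : Matrix (Fin n) (Fin n) ℤ)
    (hA : IsCoprime A.det (ℓ : ℤ)) :
    ∃ n0 : ℕ, 0 < n0 ∧ ∀ m : ℕ, n0 ∣ m → (1 - A ^ m).det ≠ 0 →
      padicValNat ℓ (1 - A ^ (m * ℓ)).det.natAbs
        = padicValNat ℓ (1 - A ^ m).det.natAbs + n := by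
  have hℓ : ℓ.Prime := Fact.out
  obtain ⟨n0, hn0, h⟩ := det_growth ℓ A hA
  refine ⟨n0, hn0, fun m hm hdet => ?_⟩
  obtain ⟨u, hu, hdet'⟩ := h m hm 1
  rw [pow_one, pow_one] at hdet'
  have hu0 : ¬ (ℓ : ℤ) ∣ u := by
    intro hdvd
    have h0 : ((u : ℤ) : ZMod ℓ) = 0 := (ZMod.intCast_zmod_eq_zero_iff_dvd u ℓ).mpr hdvd
    rw [hu] at h0
    exact one_ne_zero h0
  have hu1 : u.natAbs ≠ 0 := by
    intro h0
    rw [Int.natAbs_eq_zero] at h0
    exact hu0 (h0 ▸ dvd_zero _)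
  have hu2 : ¬ ℓ ∣ u.natAbs := fun hdvd => hu0 (Int.natCast_dvd.mpr hdvd)
  rw [hdet', Int.natAbs_mul, Int.natAbs_mul, Int.natAbs_pow, Int.natAbs_natCast,
    padicValNat.mul (Nat.mul_ne_zero (Int.natAbs_ne_zero.mpr hdet) (pow_ne_zero n hℓ.ne_zero)) hu1,
    padicValNat.mul (Int.natAbs_ne_zero.mpr hdet) (pow_ne_zero n hℓ.ne_zero),
    padicValNat.prime_pow, padicValNat.eq_zero_of_not_dvd hu2, add_zero]

end Fermat.Agent.S27D8
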