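import Mathlib

/-!
# S27, block D7 + D8 (helper65): the abstract torsion count

`J` an abelian group (in the application `Pic⁰` of a function field over `𝔽̄_p`), `σ` an
endomorphism (the `q`-Frobenius), `J_m = {x : σ^m x = x}`.  If

* `J = ⋃ J_m`, every `J_m` is finite,
* the norm `1 + s + ⋯ + s^{ℓ-1} : J_{mℓ} → J_m` (`s = σ^m`) is surjective for every `m ≥ 1`,
* `#J_m = det (1 - A ^ m)` for an integer matrix `A` of size `2g` with `ℓ ∤ det A`,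

then `#J[ℓ ^ k] = ℓ ^ (2 g k)` for every `k`.
-/

set_option autoImplicit false

namespace Fermat.Agent.S27D8

/-- the statement of block D7 + D8. -/
def TorsionCountStatement : Prop :=
  ∀ {J : Type} [AddCommGroup J] (σ : J →+ J) (ℓ : ℕ) [Fact ℓ.Prime] (g : ℕ)
    (_hunion : ∀ x : J, ∃ m : ℕ, 0 < m ∧ (⇑σ)^[m] x = x)
    (_hfin : ∀ m : ℕ, 0 < m → {x : J | (⇑σ)^[m] x = x}.Finite)
    (_hnorm : ∀ m : ℕ, 0 < m → ∀ y : J, (⇑σ)^[m] y = y →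
      ∃ x : J, (⇑σ)^[m * ℓ] x = x ∧ ∑ i ∈ Finset.range ℓ, (⇑σ)^[m * i] x = y)
    (A : Matrix (Fin (2 * g)) (Fin (2 * g)) ℤ) (_hA : IsCoprime A.det (ℓ : ℤ))
    (_hcount : ∀ m : ℕ, 0 < m →
      (Nat.card {x : J // (⇑σ)^[m] x = x} : ℤ) = (1 - A ^ m).det)
    (k : ℕ), Nat.card {x : J // ℓ ^ k • x = 0} = ℓ ^ (2 * g * k)

end Fermat.Agent.S27D8
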